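import Fermat.Agent.S14.Kummer.Units

/-!
# S14 / Kummer: every Galois extension of degree `p` of `F ∋ ζ_p` is `F(a^{1/p})`, `a ∈ 𝓞 F`
-/

set_option autoImplicit false

namespace Fermat.Agent.S14.Kummer

open NumberField

/-- Field-level version: a Galois extension `M/F` of prime degree `p`, `ζ_p ∈ F`, contains `α₀`
with `α₀ ^ p = a₀ ∈ F` and `a₀` not a `p`-th power in `F`.
(`IsGalois.card_aut_eq_finrank`, `isCyclic_of_prime_card`,
`exists_root_adjoin_eq_top_of_isCyclic`; if `a₀ = c ^ p` then `α₀ = ζ^k c ∈ F`, so `F⟮α₀⟯ = ⊥ ≠ ⊤`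
as `finrank = p > 1`.) -/
theorem exists_generator_field {p : ℕ} [Fact p.Prime] (F : Type*) [Field F] [NumberField F]
    (ζ : 𝓞 F) (hζ : IsPrimitiveRoot ζ p)
    (M : Type*) [Field M] [NumberField M] [Algebra F M] [IsGalois F M]
    (hdeg : Module.finrank F M = p) :
    ∃ (a₀ : F) (α₀ : M), α₀ ^ p = algebraMap F M a₀ ∧ ∀ c : F, c ^ p ≠ a₀ := by
  have hp : p.Prime := Fact.out
  have hζF : IsPrimitiveRoot (algebraMap (𝓞 F) F ζ) p :=
    hζ.map_of_injective RingOfIntegers.coe_injective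
  have hcard : Nat.card (M ≃ₐ[F] M) = p := by rw [IsGalois.card_aut_eq_finrank, hdeg]
  have : IsCyclic (M ≃ₐ[F] M) := isCyclic_of_prime_card hcard
  have hK : (primitiveRoots (Module.finrank F M) F).Nonempty := by
    rw [hdeg]
    exact ⟨algebraMap (𝓞 F) F ζ, (mem_primitiveRoots hp.pos).mpr hζF⟩
  obtain ⟨α₀, ⟨a₀, ha₀⟩, htop⟩ := exists_root_adjoin_eq_top_of_isCyclic F M hK
  rw [hdeg] at ha₀
  refine ⟨a₀, α₀, ha₀.symm, fun c hc => ?_⟩
  have hmem : α₀ ∈ (⊥ : IntermediateField F M) := by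
    rw [IntermediateField.mem_bot]
    by_cases hc0 : c = 0
    · refine ⟨0, ?_⟩
      have h0 : α₀ ^ p = 0 := by rw [← ha₀, ← hc, hc0, zero_pow hp.ne_zero, map_zero]
      rw [map_zero]
      exact ((pow_eq_zero_iff hp.ne_zero).mp h0).symm
    · have hζM : IsPrimitiveRoot (algebraMap F M (algebraMap (𝓞 F) F ζ)) p :=
        hζF.map_of_injective (algebraMap F M).injective
      have hpow : α₀ ^ p = (algebraMap F M c) ^ p := by rw [← map_pow, hc, ha₀]
      have hcM : algebraMap F M c ≠ 0 := (map_ne_zero (algebraMap F M)).mpr hc0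
      obtain ⟨k, -, hk⟩ := exists_eq_zeta_pow_mul (algebraMap F M (algebraMap (𝓞 F) F ζ)) hζM α₀
        (algebraMap F M c) hcM hpow
      exact ⟨(algebraMap (𝓞 F) F ζ) ^ k * c, by rw [map_mul, map_pow, hk]⟩
  have hbot : IntermediateField.adjoin F {α₀} = ⊥ :=
    IntermediateField.adjoin_simple_eq_bot_iff.mpr hmem
  have h1 : Module.finrank F M = 1 :=
    IntermediateField.bot_eq_top_iff_finrank_eq_one.mp (hbot.symm.trans htop)
  have h2 := hp.one_lt
  omega

/-- Clearing denominators: the generator can be chosen with `a ∈ 𝓞 F`.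
(Write `a₀ = n / d` with `n d : 𝓞 F`, `d ≠ 0`; take `a = n * d ^ (p - 1)`, `α = α₀ * d`.) -/
theorem exists_generator {p : ℕ} [Fact p.Prime] (F : Type*) [Field F] [NumberField F]
    (ζ : 𝓞 F) (hζ : IsPrimitiveRoot ζ p)
    (M : Type*) [Field M] [NumberField M] [Algebra F M] [IsGalois F M]
    (hdeg : Module.finrank F M = p) :
    ∃ (a : 𝓞 F) (α : M), α ^ p = algebraMap F M (a : F) ∧ ∀ c : F, c ^ p ≠ (a : F) := by
  have hp : p.Prime := Fact.out
  obtain ⟨a₀, α₀, hα₀, hne⟩ := exists_generator_field F ζ hζ M hdeg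
  obtain ⟨n, d, hd, hnd⟩ := IsFractionRing.div_surjective (A := 𝓞 F) a₀
  have hd0 : algebraMap (𝓞 F) F d ≠ 0 :=
    (map_ne_zero_iff _ RingOfIntegers.coe_injective).mpr (nonZeroDivisors.ne_zero hd)
  have hpp : p = (p - 1) + 1 := by have := hp.pos; omega
  have hkey : a₀ * (algebraMap (𝓞 F) F d) ^ p = algebraMap (𝓞 F) F (n * d ^ (p - 1)) := by
    rw [map_mul, map_pow, ← hnd]
    conv_lhs => rw [hpp, pow_succ]
    field_simp
  refine ⟨n * d ^ (p - 1), α₀ * algebraMap F M (algebraMap (𝓞 F) F d), ?_, fun c hc => ?_⟩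
  · rw [mul_pow, hα₀, ← map_pow, ← map_mul]
    exact congrArg (algebraMap F M) hkey
  · apply hne (c / algebraMap (𝓞 F) F d)
    rw [div_pow, div_eq_iff (pow_ne_zero p hd0), hkey]
    exact hc

end Fermat.Agent.S14.Kummer
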