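import Fermat.Agent.S14.Kummer.Units

/-!
# S14 / Kummer: `F ∩ M^p = ⟨a⟩ · F^p` for `M = F(a^{1/p})`
-/

set_option autoImplicit false

namespace Fermat.Agent.S14.Kummer

open NumberField

/-- Let `M/F` be Galois of degree `p`, `ζ_p ∈ F`, `α ∈ M` with `α ^ p = a ∈ F`, `a` not a `p`-th
power in `F`.  If `u ∈ F` is a `p`-th power in `M` then `u = a ^ i * c ^ p` with `c ∈ F`.

Proof: if `u = 0` take `c = 0`. Otherwise let `σ` generate `Gal(M/F)` (cyclic of prime order `p`: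
`IsGalois.card_aut_eq_finrank`, `isCyclic_of_prime_card`).  `σ α = ζ^k α` and `σ β = ζ^m β`
(`exists_eq_zeta_pow_mul` in `M` with the primitive root `algebraMap F M ζ`), and `p ∤ k` (otherwise
`α` is fixed by `Gal(M/F)`, so `α ∈ F` and `a` is a `p`-th power).  Choose `i` with
`i * k ≡ m mod p`; then `β / α ^ i` is fixed by `σ`, hence lies in `F`
(`IsGalois.mem_range_algebraMap_iff_fixed`), say it is `c`; then `u = β ^ p = a ^ i * c ^ p`. -/
theorem pow_mem_iff {p : ℕ} [Fact p.Prime] (F : Type*) [Field F] [NumberField F]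
    (ζ : 𝓞 F) (hζ : IsPrimitiveRoot ζ p)
    (M : Type*) [Field M] [NumberField M] [Algebra F M] [IsGalois F M]
    (hdeg : Module.finrank F M = p)
    (a : F) (α : M) (hα : α ^ p = algebraMap F M a) (ha : ∀ c : F, c ^ p ≠ a)
    (u : F) (hu : ∃ β : M, β ^ p = algebraMap F M u) :
    ∃ (i : ℕ) (c : F), u = a ^ i * c ^ p := by
  have hp : p.Prime := Fact.out
  have hinj : Function.Injective (algebraMap F M) := (algebraMap F M).injective
  obtain ⟨β, hβ⟩ := hu
  -- the primitive root in `M`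
  have hz : IsPrimitiveRoot (algebraMap F M (ζ : F)) p :=
    (hζ.map_of_injective (f := algebraMap (𝓞 F) F)
      (FaithfulSMul.algebraMap_injective (𝓞 F) F)).map_of_injective hinj
  generalize algebraMap F M (ζ : F) = z at hz
  have hz0 : z ≠ 0 := hz.ne_zero hp.ne_zero
  have hzmod : ∀ n : ℕ, z ^ (n % p) = z ^ n := by
    intro n
    conv_rhs => rw [← Nat.mod_add_div n p, pow_add, pow_mul, hz.pow_eq_one, one_pow, mul_one]
  have hα0 : α ≠ 0 := by
    rintro rfl
    apply ha 0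
    apply hinj
    rw [map_pow, map_zero, ← hα]
  by_cases hβ0 : β = 0
  · refine ⟨0, 0, ?_⟩
    apply hinj
    rw [← hβ, hβ0, pow_zero, one_mul, map_pow, map_zero]
  -- each `σ` scales `α` and `β` by a power of `z`
  have hσα : ∀ σ : M ≃ₐ[F] M, ∃ k < p, σ α = z ^ k * α := by
    intro σ
    apply exists_eq_zeta_pow_mul z hz (σ α) α hα0
    rw [← map_pow, hα, AlgEquiv.commutes]
  have hσβ : ∀ σ : M ≃ₐ[F] M, ∃ k < p, σ β = z ^ k * β := by
    intro σ
    apply exists_eq_zeta_pow_mul z hz (σ β) β hβ0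
    rw [← map_pow, hβ, AlgEquiv.commutes]
  -- some `σ` moves `α`
  obtain ⟨σ, hσ⟩ : ∃ σ : M ≃ₐ[F] M, σ α ≠ α := by
    by_contra hcon
    have hcon' : ∀ σ : M ≃ₐ[F] M, σ α = α := fun σ => not_not.mp fun h => hcon ⟨σ, h⟩
    obtain ⟨c, hc⟩ := (IsGalois.mem_range_algebraMap_iff_fixed α).mpr hcon'
    apply ha c
    apply hinj
    rw [map_pow, hc, hα]
  have hσ1 : σ ≠ 1 := by
    rintro rfl
    exact hσ rfl
  have hcard : Nat.card (M ≃ₐ[F] M) = p := by
    rw [IsGalois.card_aut_eq_finrank, hdeg]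
  obtain ⟨k, hkp, hk⟩ := hσα σ
  obtain ⟨m, -, hm⟩ := hσβ σ
  have hk0 : k ≠ 0 := by
    rintro rfl
    apply hσ
    rw [hk, pow_zero, one_mul]
  have hcop : Nat.Coprime k p := (Nat.coprime_of_lt_prime hk0 hkp hp).symm
  obtain ⟨i, -, hi⟩ := Nat.exists_mul_mod_eq_of_coprime m hcop hp.ne_zero
  have hzki : z ^ (k * i) = z ^ m := by
    rw [← hzmod (k * i), hi, hzmod]
  -- `γ = β / α ^ i` is fixed by `σ`, hence by the whole group
  have hσγ : σ (β / α ^ i) = β / α ^ i := by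
    rw [map_div₀, map_pow, hk, hm, mul_pow, ← pow_mul, hzki,
      mul_div_mul_left _ _ (pow_ne_zero m hz0)]
  have hfix : ∀ τ : M ≃ₐ[F] M, τ (β / α ^ i) = β / α ^ i := by
    intro τ
    have hle : Subgroup.zpowers σ ≤ MulAction.stabilizer (M ≃ₐ[F] M) (β / α ^ i) := by
      rw [Subgroup.zpowers_le]
      exact hσγ
    exact hle (mem_zpowers_of_prime_card hcard hσ1)
  obtain ⟨c, hc⟩ := (IsGalois.mem_range_algebraMap_iff_fixed (β / α ^ i)).mpr hfix
  refine ⟨i, c, ?_⟩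
  apply hinj
  have hβeq : β = algebraMap F M c * α ^ i := by
    rw [hc, div_mul_cancel₀ _ (pow_ne_zero i hα0)]
  rw [← hβ, hβeq, mul_pow, ← pow_mul, mul_comm i p, pow_mul, hα, map_mul, map_pow, map_pow,
    mul_comm]

end Fermat.Agent.S14.Kummer
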