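import Fermat.Agent.S14.Kummer.SplitLocal

/-!
# S14 / Kummer: the splitting criterion (tame and wild at once)
-/

set_option autoImplicit false

namespace Fermat.Agent.S14.Kummer

open NumberField IsDedekindDomain
open scoped Pointwise

/-- Integral version.  Let `Q` be a prime of `N` over `v` and `σ` in its stabilizer; to show
`σ = 1`.  `Q ≠ ⊥` (`ne_bot_of_liesOver`), so `Q` is a `HeightOneSpectrum (𝓞 N)`.
`σ • b = ζ^k b`, `k < p` (`smul_eq_zeta_pow_mul`; `x ≠ 0` as `x ∉ v`).  By `exists_small` there is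
`j` with `|c - ζ^j b| < |1 - ζ|`; applying `σ` (`intValuation_smul_eq`, `smul_algebraMap`) gives
`|c - ζ^(j+k) b| < |1 - ζ|`, so `j + k ≡ j mod p` by `small_unique`, so `k = 0`, `σ • b = b`, and
`σ = 1` by `eq_one_of_smul_eq`. -/
theorem splitsCompletely_int {p : ℕ} [Fact p.Prime] (F : Type*) [Field F] [NumberField F]
    (ζ : 𝓞 F) (hζ : IsPrimitiveRoot ζ p)
    (N : Type*) [Field N] [NumberField N] [Algebra F N] [IsGalois F N]
    (hdeg : Module.finrank F N = p)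
    (x : 𝓞 F) (hx : ∀ c : F, c ^ p ≠ (x : F))
    (b : 𝓞 N) (hb : b ^ p = algebraMap (𝓞 F) (𝓞 N) x)
    (v : Ideal (𝓞 F)) (hv : v.IsPrime) (hv0 : v ≠ ⊥) (n : ℕ)
    (hn : (1 - ζ) ^ p ∉ v ^ n) (c : 𝓞 F) (hxv : x ∉ v) (hc : x - c ^ p ∈ v ^ n) :
    SplitsCompletely F N v := by
  intro Q hQ hQv
  rw [Subgroup.eq_bot_iff_forall]
  intro σ hσ
  rw [MulAction.mem_stabilizer_iff] at hσ
  have hQ0 : Q ≠ ⊥ := ne_bot_of_liesOver v hv0 Q hQv
  let Q' : HeightOneSpectrum (𝓞 N) := ⟨Q, hQ, hQ0⟩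
  have hx0 : x ≠ 0 := by
    rintro rfl
    exact hxv v.zero_mem
  obtain ⟨k, hkp, hk⟩ := smul_eq_zeta_pow_mul ζ hζ x hx0 b hb σ
  obtain ⟨j, hjp, hj⟩ := exists_small ζ hζ x c b hb v hv hv0 n hn hc Q' hQv
  have hσj := intValuation_smul_eq Q' σ hσ
    (algebraMap (𝓞 F) (𝓞 N) c - algebraMap (𝓞 F) (𝓞 N) (ζ ^ j) * b)
  have hcalc : σ • (algebraMap (𝓞 F) (𝓞 N) c - algebraMap (𝓞 F) (𝓞 N) (ζ ^ j) * b)
      = algebraMap (𝓞 F) (𝓞 N) c - algebraMap (𝓞 F) (𝓞 N) (ζ ^ (j + k)) * b := by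
    rw [smul_sub, smul_mul', smul_algebraMap, smul_algebraMap, hk, pow_add, map_mul, mul_assoc]
  rw [hcalc] at hσj
  have hmod : j + k ≡ j [MOD p] :=
    small_unique ζ hζ x c b hb v hxv Q' hQv (j + k) j (hσj ▸ hj) hj
  have hk0 : k = 0 := by
    have h1 : j + k ≡ j + 0 [MOD p] := by simpa using hmod
    have h2 : k ≡ 0 [MOD p] := Nat.ModEq.add_left_cancel' j h1
    exact Nat.eq_zero_of_dvd_of_lt ((Nat.modEq_zero_iff_dvd).mp h2) hkp
  subst hk0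
  rw [pow_zero, map_one, one_mul] at hk
  exact eq_one_of_smul_eq hdeg x hx b hb σ hk

theorem splitsCompletely {p : ℕ} [Fact p.Prime] (F : Type*) [Field F] [NumberField F]
    (ζ : 𝓞 F) (hζ : IsPrimitiveRoot ζ p)
    (N : Type*) [Field N] [NumberField N] [Algebra F N] [IsGalois F N]
    (hdeg : Module.finrank F N = p)
    (x : 𝓞 F) (hx : ∀ c : F, c ^ p ≠ (x : F))
    (β : N) (hβ : β ^ p = algebraMap F N (x : F))
    (v : Ideal (𝓞 F)) (hv : v.IsPrime) (hv0 : v ≠ ⊥) (n : ℕ)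
    (hn : (1 - ζ) ^ p ∉ v ^ n) (c : 𝓞 F) (hxv : x ∉ v) (hc : x - c ^ p ∈ v ^ n) :
    SplitsCompletely F N v := by
  obtain ⟨b, -, hb⟩ := exists_integer x β hβ
  exact splitsCompletely_int F ζ hζ N hdeg x hx b hb v hv hv0 n hn c hxv hc

end Fermat.Agent.S14.Kummer
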