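import Fermat.Agent.S14.Kummer.Basic

/-!
# S14 / Kummer: `F(x^{1/p})/F` is unramified at primes not dividing `p x`
-/

set_option autoImplicit false

namespace Fermat.Agent.S14.Kummer

open NumberField
open scoped Pointwise

/-- Integral version.  Proof: let `σ ∈ Q.inertia`, i.e. `σ • y - y ∈ Q` for all `y : 𝓞 N`.
By `smul_eq_zeta_pow_mul`, `σ • b = ζ^k * b` with `k < p`, so `(ζ^k - 1) * b ∈ Q`; `b ∉ Q`
(`not_mem_of_not_mem`), so `ζ^k - 1 ∈ Q`, hence `ζ^k - 1 ∈ w` (`LiesOver`).  If `k ≠ 0` then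
`ζ^k - 1 ∣ p` (`pow_sub_one_dvd_prime`), so `p ∈ w`: contradiction.  So `k = 0`, `σ • b = b` and
`σ = 1` by `eq_one_of_smul_eq`. -/
theorem unramifiedAt_int {p : ℕ} [Fact p.Prime] (F : Type*) [Field F] [NumberField F]
    (ζ : 𝓞 F) (hζ : IsPrimitiveRoot ζ p)
    (N : Type*) [Field N] [NumberField N] [Algebra F N] [IsGalois F N]
    (hdeg : Module.finrank F N = p)
    (x : 𝓞 F) (hx : ∀ c : F, c ^ p ≠ (x : F))
    (b : 𝓞 N) (hb : b ^ p = algebraMap (𝓞 F) (𝓞 N) x)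
    (w : Ideal (𝓞 F)) (hw : w.IsPrime) (hpw : ((p : ℕ) : 𝓞 F) ∉ w) (hxw : x ∉ w)
    (Q : Ideal (𝓞 N)) (hQ : Q.IsPrime) (hQw : Q.LiesOver w) :
    UnramifiedAt F N Q := by
  unfold UnramifiedAt
  refine (Subgroup.eq_bot_iff_forall _).2 fun σ hσ => ?_
  have hσ' : ∀ y : 𝓞 N, σ • y - y ∈ Q := fun y => hσ y
  have hx0 : x ≠ 0 := fun h => hxw (h ▸ w.zero_mem)
  obtain ⟨k, hk, hkb⟩ := smul_eq_zeta_pow_mul ζ hζ x hx0 b hb σ
  have hbQ : b ∉ Q := not_mem_of_not_mem x b hb w hxw Q hQw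
  have h1 : algebraMap (𝓞 F) (𝓞 N) (ζ ^ k - 1) * b ∈ Q := by
    have h := hσ' b
    rw [hkb] at h
    rwa [map_sub, map_one, sub_mul, one_mul]
  have h2 : algebraMap (𝓞 F) (𝓞 N) (ζ ^ k - 1) ∈ Q := (hQ.mem_or_mem h1).resolve_right hbQ
  have h3 : ζ ^ k - 1 ∈ w := by
    have hover : w = Q.under (𝓞 F) := hQw.over
    rw [hover]
    exact Ideal.mem_comap.mpr h2
  have hk0 : k = 0 := by
    by_contra hk0
    have hpk : ¬ p ∣ k := fun h => hk0 (Nat.eq_zero_of_dvd_of_lt h hk)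
    have hdvd : (ζ ^ k - 1) ∣ ((p : ℕ) : 𝓞 F) := pow_sub_one_dvd_prime ζ hζ k hpk
    exact hpw (Ideal.mem_of_dvd w hdvd h3)
  subst hk0
  apply eq_one_of_smul_eq hdeg x hx b hb σ
  rw [hkb, pow_zero, map_one, one_mul]

theorem unramifiedAt {p : ℕ} [Fact p.Prime] (F : Type*) [Field F] [NumberField F]
    (ζ : 𝓞 F) (hζ : IsPrimitiveRoot ζ p)
    (N : Type*) [Field N] [NumberField N] [Algebra F N] [IsGalois F N]
    (hdeg : Module.finrank F N = p)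
    (x : 𝓞 F) (hx : ∀ c : F, c ^ p ≠ (x : F))
    (β : N) (hβ : β ^ p = algebraMap F N (x : F))
    (w : Ideal (𝓞 F)) (hw : w.IsPrime) (hw0 : w ≠ ⊥) (hpw : ((p : ℕ) : 𝓞 F) ∉ w) (hxw : x ∉ w)
    (Q : Ideal (𝓞 N)) (hQ : Q.IsPrime) (hQw : Q.LiesOver w) :
    UnramifiedAt F N Q := by
  obtain ⟨b, -, hb⟩ := exists_integer x β hβ
  exact unramifiedAt_int F ζ hζ N hdeg x hx b hb w hw hpw hxw Q hQ hQw

end Fermat.Agent.S14.Kummer
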