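import Fermat.Agent.S14.Kummer.Exists
import Fermat.Agent.S14.Kummer.Generator
import Fermat.Agent.S14.Kummer.Powers
import Fermat.Agent.S14.Kummer.Unram
import Fermat.Agent.S14.Kummer.Split

/-!
# S14 / Kummer theory API (T6a; owner helper16)

Public statements (all in namespace `Fermat.Agent.S14.Kummer`), for a prime `p` and a number field
`F` containing a primitive `p`-th root of unity.

## Form A (helper1 / T6): `(ζ : 𝓞 F) (hζ : IsPrimitiveRoot ζ p)`

* `exists_kummer_extension`: `x : 𝓞 F` not a `p`-th power in `F` ⟹ there is a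
  number field `N/F` (same universe as `F`), Galois of degree `p`, with `β ^ p = x`.
* `exists_generator` (`Generator.lean`): every Galois `M/F` of degree `p` contains `α` with
  `α ^ p = a`, `a : 𝓞 F` not a `p`-th power in `F`.
* `pow_mem_iff` (`Powers.lean`): for such `M`, `a : F`, `α`: if `u : F` is a `p`-th power in `M`
  then `u = a ^ i * c ^ p`.
* `unramifiedAt` (`Unram.lean`): `N/F` Galois of degree `p`, `β ^ p = x`, `x` not a `p`-th power:
  `N/F` is unramified at every prime `Q` over a prime `w` with `p ∉ w`, `x ∉ w`.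
* `splitsCompletely` (`Split.lean`): same `N`, `x`, `β`; `v` a nonzero prime with `x ∉ v`,
  `x ≡ c ^ p mod v ^ n` and `(1 - ζ) ^ p ∉ v ^ n` ⟹ `v` splits completely in `N`.

## Form B (helper21 / T7): `(hζ : ∃ ζ : F, IsPrimitiveRoot ζ p)`

* `exists_kummer_ext`, `eq_pow_mul_pow_of_pow_eq`, `splitsCompletely_of_pow_residue`.
  NB: the last two need the hypothesis that `x` is not a `p`-th power in `F`
  (they are false without it: take `x = 1`).
-/

set_option autoImplicit false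

universe u

namespace Fermat.Agent.S14.Kummer

open NumberField

/-- A primitive `p`-th root of unity of `F` lies in `𝓞 F`. -/
theorem exists_integer_root {p : ℕ} [Fact p.Prime] {F : Type*} [Field F] [NumberField F]
    (hζ : ∃ ζ : F, IsPrimitiveRoot ζ p) : ∃ ζ : 𝓞 F, IsPrimitiveRoot ζ p := by
  obtain ⟨ζ, hζ⟩ := hζ
  haveI : NeZero p := ⟨(Fact.out : p.Prime).ne_zero⟩
  exact ⟨hζ.toInteger, hζ.toInteger_isPrimitiveRoot⟩

/-- The image in `F` of a primitive root of `𝓞 F` is primitive. -/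
theorem isPrimitiveRoot_coe {p : ℕ} {F : Type*} [Field F] [NumberField F]
    (ζ : 𝓞 F) (hζ : IsPrimitiveRoot ζ p) : IsPrimitiveRoot (ζ : F) p :=
  hζ.map_of_injective (f := algebraMap (𝓞 F) F) (FaithfulSMul.algebraMap_injective (𝓞 F) F)

/-! ### Form A -/

theorem exists_kummer_extension {p : ℕ} [Fact p.Prime] (F : Type u) [Field F] [NumberField F]
    (ζ : 𝓞 F) (hζ : IsPrimitiveRoot ζ p) (x : 𝓞 F) (hx : ∀ c : F, c ^ p ≠ (x : F)) :
    ∃ (N : Type u) (_ : Field N) (_ : NumberField N) (_ : Algebra F N),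
      IsGalois F N ∧ Module.finrank F N = p ∧ ∃ β : N, β ^ p = algebraMap F N (x : F) :=
  exists_kummer_extension_field F (ζ : F) (isPrimitiveRoot_coe ζ hζ) (x : F) hx

/-! ### Form B -/

theorem exists_kummer_ext {p : ℕ} [Fact p.Prime] (F : Type u) [Field F] [NumberField F]
    (hζ : ∃ ζ : F, IsPrimitiveRoot ζ p) (x : F) (hx : ¬ ∃ c : F, c ^ p = x) :
    ∃ (N : Type u) (_ : Field N) (_ : NumberField N) (_ : Algebra F N) (_ : IsGalois F N),
      Module.finrank F N = p ∧ ∃ α : N, α ^ p = algebraMap F N x := by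
  obtain ⟨ζ, hζ⟩ := hζ
  obtain ⟨N, i1, i2, i3, h1, h2, h3⟩ :=
    exists_kummer_extension_field F ζ hζ x (fun c hc => hx ⟨c, hc⟩)
  exact ⟨N, i1, i2, i3, h1, h2, h3⟩

theorem eq_pow_mul_pow_of_pow_eq {p : ℕ} [Fact p.Prime] (F N : Type*) [Field F] [NumberField F]
    [Field N] [NumberField N] [Algebra F N] [IsGalois F N]
    (hζ : ∃ ζ : F, IsPrimitiveRoot ζ p) (hdeg : Module.finrank F N = p)
    (x : F) (hx : ¬ ∃ c : F, c ^ p = x) (α : N) (hα : α ^ p = algebraMap F N x)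
    (z : F) (γ : N) (hγ : γ ^ p = algebraMap F N z) :
    ∃ (j : ℕ) (c : F), z = x ^ j * c ^ p := by
  obtain ⟨ζ, hζ⟩ := exists_integer_root hζ
  exact pow_mem_iff F ζ hζ N hdeg x α hα (fun c hc => hx ⟨c, hc⟩) z ⟨γ, hγ⟩

theorem splitsCompletely_of_pow_residue {p : ℕ} [Fact p.Prime] (F N : Type*) [Field F]
    [NumberField F] [Field N] [NumberField N] [Algebra F N] [IsGalois F N]
    (hζ : ∃ ζ : F, IsPrimitiveRoot ζ p) (hdeg : Module.finrank F N = p)
    (x : 𝓞 F) (hx : ¬ ∃ c : F, c ^ p = (x : F)) (α : N) (hα : α ^ p = algebraMap F N (x : F))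
    (w : Ideal (𝓞 F)) (hw : w.IsPrime) (hw0 : w ≠ ⊥) (hpw : ((p : ℕ) : 𝓞 F) ∉ w) (hxw : x ∉ w)
    (c : 𝓞 F) (hc : x - c ^ p ∈ w) : SplitsCompletely F N w := by
  obtain ⟨ζ, hζ⟩ := exists_integer_root hζ
  refine splitsCompletely F ζ hζ N hdeg x (fun c hc => hx ⟨c, hc⟩) α hα w hw hw0 1 ?_ c hxw
    (by simpa using hc)
  rw [pow_one]
  intro h
  have h1 : (1 - ζ) ∈ w := hw.mem_of_pow_mem p h
  exact hpw (Ideal.mem_of_dvd w (one_sub_dvd_prime ζ hζ) h1)

/-! ### Signature check of Form A (as promised to helper1) -/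

section check

example {p : ℕ} [Fact p.Prime] (F : Type*) [Field F] [NumberField F]
    (ζ : 𝓞 F) (hζ : IsPrimitiveRoot ζ p)
    (M : Type*) [Field M] [NumberField M] [Algebra F M] [IsGalois F M]
    (hdeg : Module.finrank F M = p) :
    ∃ (a : 𝓞 F) (α : M), α ^ p = algebraMap F M (a : F) ∧ ∀ c : F, c ^ p ≠ (a : F) :=
  exists_generator F ζ hζ M hdeg

example {p : ℕ} [Fact p.Prime] (F : Type*) [Field F] [NumberField F]
    (ζ : 𝓞 F) (hζ : IsPrimitiveRoot ζ p)
    (M : Type*) [Field M] [NumberField M] [Algebra F M] [IsGalois F M]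
    (hdeg : Module.finrank F M = p)
    (a : F) (α : M) (hα : α ^ p = algebraMap F M a) (ha : ∀ c : F, c ^ p ≠ a)
    (u : F) (hu : ∃ β : M, β ^ p = algebraMap F M u) :
    ∃ (i : ℕ) (c : F), u = a ^ i * c ^ p :=
  pow_mem_iff F ζ hζ M hdeg a α hα ha u hu

example {p : ℕ} [Fact p.Prime] (F : Type*) [Field F] [NumberField F]
    (ζ : 𝓞 F) (hζ : IsPrimitiveRoot ζ p)
    (N : Type*) [Field N] [NumberField N] [Algebra F N] [IsGalois F N]
    (hdeg : Module.finrank F N = p)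
    (x : 𝓞 F) (hx : ∀ c : F, c ^ p ≠ (x : F))
    (β : N) (hβ : β ^ p = algebraMap F N (x : F))
    (w : Ideal (𝓞 F)) (hw : w.IsPrime) (hw0 : w ≠ ⊥) (hpw : ((p : ℕ) : 𝓞 F) ∉ w) (hxw : x ∉ w)
    (Q : Ideal (𝓞 N)) (hQ : Q.IsPrime) (hQw : Q.LiesOver w) :
    UnramifiedAt F N Q :=
  unramifiedAt F ζ hζ N hdeg x hx β hβ w hw hw0 hpw hxw Q hQ hQw

example {p : ℕ} [Fact p.Prime] (F : Type*) [Field F] [NumberField F]
    (ζ : 𝓞 F) (hζ : IsPrimitiveRoot ζ p)
    (N : Type*) [Field N] [NumberField N] [Algebra F N] [IsGalois F N]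
    (hdeg : Module.finrank F N = p)
    (x : 𝓞 F) (hx : ∀ c : F, c ^ p ≠ (x : F))
    (β : N) (hβ : β ^ p = algebraMap F N (x : F))
    (v : Ideal (𝓞 F)) (hv : v.IsPrime) (hv0 : v ≠ ⊥) (n : ℕ)
    (hn : (1 - ζ) ^ p ∉ v ^ n) (c : 𝓞 F) (hxv : x ∉ v) (hc : x - c ^ p ∈ v ^ n) :
    SplitsCompletely F N v :=
  splitsCompletely F ζ hζ N hdeg x hx β hβ v hv hv0 n hn c hxv hc

end check

end Fermat.Agent.S14.Kummer
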