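import Fermat.Agent.S14.Kummer.Units

/-!
# S14 / Kummer: basic facts on a Kummer generator `b : 𝓞 N`, `b ^ p = x`
-/

set_option autoImplicit false

namespace Fermat.Agent.S14.Kummer

open NumberField
open scoped Pointwise

variable {p : ℕ} [Fact p.Prime] {F : Type*} [Field F] [NumberField F]
  {N : Type*} [Field N] [NumberField N] [Algebra F N]

/-- A `p`-th root of an integer is an integer. -/
theorem exists_integer (x : 𝓞 F) (β : N) (hβ : β ^ p = algebraMap F N (x : F)) :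
    ∃ b : 𝓞 N, (b : N) = β ∧ b ^ p = algebraMap (𝓞 F) (𝓞 N) x := by
  have hp : 0 < p := (Fact.out : p.Prime).pos
  have hx : IsIntegral ℤ (algebraMap F N (x : F)) :=
    (RingOfIntegers.isIntegral_coe x).algebraMap
  have hβint : IsIntegral ℤ β := IsIntegral.of_pow hp (hβ ▸ hx)
  refine ⟨⟨β, hβint⟩, rfl, ?_⟩
  apply RingOfIntegers.ext
  rw [coe_algebraMap, ← hβ]
  rfl

/-- Every `σ ∈ Gal(N/F)` multiplies `b` by a power of `ζ`. -/
theorem smul_eq_zeta_pow_mul (ζ : 𝓞 F) (hζ : IsPrimitiveRoot ζ p) (x : 𝓞 F) (hx0 : x ≠ 0)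
    (b : 𝓞 N) (hb : b ^ p = algebraMap (𝓞 F) (𝓞 N) x) (σ : N ≃ₐ[F] N) :
    ∃ k < p, σ • b = algebraMap (𝓞 F) (𝓞 N) (ζ ^ k) * b := by
  have hinj : Function.Injective (algebraMap (𝓞 F) (𝓞 N)) :=
    RingOfIntegers.algebraMap.injective F N
  have hb0 : b ≠ 0 := by
    rintro rfl
    rw [zero_pow (Fact.out : p.Prime).ne_zero] at hb
    exact hx0 (hinj (by rw [← hb, map_zero]))
  have hζ' : IsPrimitiveRoot (algebraMap (𝓞 F) (𝓞 N) ζ) p := hζ.map_of_injective hinj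
  have hpow : (σ • b) ^ p = b ^ p := by
    rw [← smul_pow', hb, smul_algebraMap]
  obtain ⟨k, hk, h⟩ := exists_eq_zeta_pow_mul (algebraMap (𝓞 F) (𝓞 N) ζ) hζ' (σ • b) b hb0 hpow
  exact ⟨k, hk, by rw [h, map_pow]⟩

/-- If `x` is not a `p`-th power in `F` then `b ∉ F`; as `Gal(N/F)` has prime order `p`, an
automorphism fixing `b` is trivial.  (If `σ ≠ 1` then `σ` generates the group, so `b` is fixed by
the whole group, hence `(b : N) ∈ F` by `IsGalois.mem_range_algebraMap_iff_fixed`, and then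
`x` is a `p`-th power in `F`.) -/
theorem eq_one_of_smul_eq [IsGalois F N] (hdeg : Module.finrank F N = p)
    (x : 𝓞 F) (hx : ∀ c : F, c ^ p ≠ (x : F))
    (b : 𝓞 N) (hb : b ^ p = algebraMap (𝓞 F) (𝓞 N) x) (σ : N ≃ₐ[F] N) (hσ : σ • b = b) :
    σ = 1 := by
  by_contra hne
  have hfin : FiniteDimensional F N :=
    Module.finite_of_finrank_pos (hdeg ▸ (Fact.out : p.Prime).pos)
  have hcard : Nat.card (N ≃ₐ[F] N) = p := by rw [IsGalois.card_aut_eq_finrank, hdeg]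
  have hσb : σ (b : N) = (b : N) := by rw [← coe_smul, hσ]
  have hle : Subgroup.zpowers σ ≤ MulAction.stabilizer (N ≃ₐ[F] N) (b : N) := by
    rw [Subgroup.zpowers_le]
    exact hσb
  have hfix : ∀ τ : N ≃ₐ[F] N, τ (b : N) = (b : N) := fun τ =>
    hle (mem_zpowers_of_prime_card hcard hne)
  obtain ⟨c, hc⟩ := (IsGalois.mem_range_algebraMap_iff_fixed (b : N)).mpr hfix
  apply hx c
  apply (algebraMap F N).injective
  rw [map_pow, hc, ← coe_algebraMap, ← hb]
  rfl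

set_option linter.unusedSectionVars false in
/-- If `x ∉ w` and `Q` lies over `w` then `b ∉ Q`. -/
theorem not_mem_of_not_mem (x : 𝓞 F) (b : 𝓞 N) (hb : b ^ p = algebraMap (𝓞 F) (𝓞 N) x)
    (w : Ideal (𝓞 F)) (hxw : x ∉ w) (Q : Ideal (𝓞 N)) (hQw : Q.LiesOver w) : b ∉ Q := by
  intro hbQ
  apply hxw
  rw [hQw.over, Ideal.under_def, Ideal.mem_comap, ← hb]
  exact Ideal.pow_mem_of_mem Q hbQ p (Fact.out : p.Prime).pos

set_option linter.unusedSectionVars false in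
/-- A nonzero prime of `𝓞 F` has only nonzero primes above it. -/
theorem ne_bot_of_liesOver (w : Ideal (𝓞 F)) (hw0 : w ≠ ⊥) (Q : Ideal (𝓞 N))
    (hQw : Q.LiesOver w) : Q ≠ ⊥ :=
  Ideal.ne_bot_of_liesOver_of_ne_bot hw0 Q

end Fermat.Agent.S14.Kummer
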