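import Fermat.Agent.S14.Defs

/-!
# S14 / Kummer theory (T6a; owner helper16): shared conventions and trivial glue lemmas

Setting: `p` a prime, `F` a number field containing a primitive `p`-th root of unity, given as
`(ζ : 𝓞 F) (hζ : IsPrimitiveRoot ζ p)`; `N/F` a Galois extension of degree `p`; `x : 𝓞 F` not a
`p`-th power in `F`; `β : N` with `β ^ p = x`; usually replaced at once by its integral version
`b : 𝓞 N` with `b ^ p = algebraMap (𝓞 F) (𝓞 N) x`.

The Galois group `N ≃ₐ[F] N` acts on `𝓞 N` (Mathlib instance) and on `Ideal (𝓞 N)`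
(`open scoped Pointwise`).  The three lemmas below are the only facts about this action that are
not in Mathlib under an obvious name.
-/

set_option autoImplicit false
set_option linter.unusedSectionVars false

namespace Fermat.Agent.S14.Kummer

open NumberField
open scoped Pointwise

variable {F N : Type*} [Field F] [NumberField F] [Field N] [NumberField N] [Algebra F N]

/-- The action of `σ` on `𝓞 N` is the restriction of `σ`. -/
theorem coe_smul (σ : N ≃ₐ[F] N) (b : 𝓞 N) : ((σ • b : 𝓞 N) : N) = σ (b : N) := rfl

/-- `algebraMap (𝓞 F) (𝓞 N)` is the restriction of `algebraMap F N`. -/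
theorem coe_algebraMap (a : 𝓞 F) :
    ((algebraMap (𝓞 F) (𝓞 N) a : 𝓞 N) : N) = algebraMap F N (a : F) := rfl

/-- Elements of `𝓞 F` are fixed by the Galois group. -/
theorem smul_algebraMap (σ : N ≃ₐ[F] N) (a : 𝓞 F) :
    σ • (algebraMap (𝓞 F) (𝓞 N) a) = algebraMap (𝓞 F) (𝓞 N) a := by
  apply RingOfIntegers.ext
  rw [coe_smul, coe_algebraMap, AlgEquiv.commutes]

end Fermat.Agent.S14.Kummer
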