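import Fermat.Agent.S14.Kummer.Defs

/-!
# S14 / Kummer: existence of `F(x^{1/p})` as a number field
-/

set_option autoImplicit false

universe u

namespace Fermat.Agent.S14.Kummer

open NumberField Polynomial

/-- If `x ∈ F` is not a `p`-th power in `F ∋ ζ_p`, then `N = F[X]/(X^p - x)` is a number field
(in the same universe as `F`), Galois of degree `p` over `F`, containing a `p`-th root of `x`.
Mathlib: `X_pow_sub_C_irreducible_of_prime`, `AdjoinRoot`, `isSplittingField_AdjoinRoot_X_pow_sub_C`,
`isGalois_of_isSplittingField_X_pow_sub_C`, `finrank_of_isSplittingField_X_pow_sub_C`,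
`root_X_pow_sub_C_pow`, `NumberField.of_module_finite`. -/
theorem exists_kummer_extension_field {p : ℕ} [Fact p.Prime] (F : Type u) [Field F] [NumberField F]
    (ζ : F) (hζ : IsPrimitiveRoot ζ p) (x : F) (hx : ∀ c : F, c ^ p ≠ x) :
    ∃ (N : Type u) (_ : Field N) (_ : NumberField N) (_ : Algebra F N),
      IsGalois F N ∧ Module.finrank F N = p ∧ ∃ β : N, β ^ p = algebraMap F N x := by
  have hp : p.Prime := Fact.out
  have H : Irreducible (X ^ p - C x : F[X]) := X_pow_sub_C_irreducible_of_prime hp hx
  have := Fact.mk H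
  have hζ' : (primitiveRoots p F).Nonempty := ⟨ζ, (mem_primitiveRoots hp.pos).2 hζ⟩
  have : IsSplittingField F (AdjoinRoot (X ^ p - C x : F[X])) (X ^ p - C x) :=
    isSplittingField_AdjoinRoot_X_pow_sub_C hζ' H
  have : Module.Finite F (AdjoinRoot (X ^ p - C x : F[X])) :=
    Polynomial.IsSplittingField.finiteDimensional _ (X ^ p - C x)
  refine ⟨AdjoinRoot (X ^ p - C x : F[X]), inferInstance, NumberField.of_module_finite F _,
    inferInstance, ?_, ?_, AdjoinRoot.root _, ?_⟩
  · exact isGalois_of_isSplittingField_X_pow_sub_C hζ' H _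
  · exact finrank_of_isSplittingField_X_pow_sub_C hζ' H _
  · rw [root_X_pow_sub_C_pow, AdjoinRoot.algebraMap_eq]

end Fermat.Agent.S14.Kummer
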