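import Fermat.Agent.S14.Kummer.Defs

/-!
# S14 / Kummer: valuation lemmas (`IsDedekindDomain.HeightOneSpectrum.intValuation`)
-/

set_option autoImplicit false

namespace Fermat.Agent.S14.Kummer

open NumberField IsDedekindDomain
open scoped Pointwise

variable {F : Type*} [Field F] [NumberField F]
  {N : Type*} [Field N] [NumberField N] [Algebra F N]

set_option linter.unusedSectionVars false in
/-- One inequality of `intValuation_smul_eq`. -/
theorem val_smul_le (Q : HeightOneSpectrum (𝓞 N)) (σ : N ≃ₐ[F] N)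
    (hσ : σ • Q.asIdeal = Q.asIdeal) (y : 𝓞 N) :
    Q.intValuation (σ • y) ≤ Q.intValuation y := by
  rcases eq_or_ne y 0 with rfl | hy
  · simp
  · obtain ⟨m, hm⟩ : ∃ m : ℕ, Q.intValuation y = WithZero.exp (-(m : ℤ)) :=
      ⟨_, Q.intValuation_if_neg hy⟩
    rw [hm, Q.intValuation_le_pow_iff_mem]
    have hy' : y ∈ Q.asIdeal ^ m := (Q.intValuation_le_pow_iff_mem y m).mp hm.le
    have h : σ • y ∈ σ • (Q.asIdeal ^ m) := Ideal.smul_mem_pointwise_smul_iff.mpr hy'
    rwa [smul_pow', hσ] at h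

/-- The `Q`-adic valuation is invariant under the decomposition group of `Q`.
(`HeightOneSpectrum.intValuation_le_pow_iff_mem`, `Ideal.smul_mem_pointwise_smul_iff`,
`smul_pow'`; for `y ≠ 0` the valuation of `y` is `WithZero.exp (-m)` for some `m : ℕ`,
see `HeightOneSpectrum.intValuation_if_neg` / `intValuation_def`.) -/
theorem intValuation_smul_eq (Q : HeightOneSpectrum (𝓞 N)) (σ : N ≃ₐ[F] N)
    (hσ : σ • Q.asIdeal = Q.asIdeal) (y : 𝓞 N) :
    Q.intValuation (σ • y) = Q.intValuation y := by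
  refine le_antisymm (val_smul_le Q σ hσ y) ?_
  have hσ' : σ⁻¹ • Q.asIdeal = Q.asIdeal := by
    conv_lhs => rw [← hσ]
    exact inv_smul_smul σ Q.asIdeal
  have h := val_smul_le Q σ⁻¹ hσ' (σ • y)
  rwa [inv_smul_smul] at h

/-- Comparison of valuations along `F ⊆ N`: if `a ∈ v ^ n` and `d ∉ v ^ n` then `a` has strictly
smaller `Q`-adic absolute value than `d`, for every prime `Q` above `v`.
(Mathlib: `HeightOneSpectrum.intValuation_liesOver` in
`Mathlib/NumberTheory/RamificationInertia/Valuation.lean`, with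
`Ideal.IsDedekindDomain.ramificationIdx'_ne_zero_of_liesOver`, `intValuation_le_pow_iff_mem`,
`pow_lt_pow_left₀`.) -/
theorem intValuation_lt_of_mem_pow (v : Ideal (𝓞 F)) (hv : v.IsPrime) (hv0 : v ≠ ⊥)
    (Q : HeightOneSpectrum (𝓞 N)) (hQv : Q.asIdeal.LiesOver v) (n : ℕ) (a d : 𝓞 F)
    (ha : a ∈ v ^ n) (hd : d ∉ v ^ n) :
    Q.intValuation (algebraMap (𝓞 F) (𝓞 N) a) < Q.intValuation (algebraMap (𝓞 F) (𝓞 N) d) := by
  let v' : HeightOneSpectrum (𝓞 F) := ⟨v, hv, hv0⟩
  have hQv' : Q.asIdeal.LiesOver v'.asIdeal := hQv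
  have ha' : v'.intValuation a ≤ WithZero.exp (-(n : ℤ)) :=
    (v'.intValuation_le_pow_iff_mem a n).mpr ha
  have hd' : WithZero.exp (-(n : ℤ)) < v'.intValuation d :=
    lt_of_not_ge fun h => hd ((v'.intValuation_le_pow_iff_mem d n).mp h)
  have hlt : v'.intValuation a < v'.intValuation d := lt_of_le_of_lt ha' hd'
  have he : v'.asIdeal.ramificationIdx' Q.asIdeal ≠ 0 :=
    Ideal.IsDedekindDomain.ramificationIdx'_ne_zero_of_liesOver Q.asIdeal v'.ne_bot
  rw [← HeightOneSpectrum.intValuation_liesOver v' Q a,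
    ← HeightOneSpectrum.intValuation_liesOver v' Q d]
  exact pow_lt_pow_left₀ hlt zero_le he

/-- If a product of `p` elements has smaller absolute value than `l ^ p`, one of the factors has
smaller absolute value than `l`. -/
theorem exists_lt_of_prod_lt (Q : HeightOneSpectrum (𝓞 N)) (p : ℕ) (f : ℕ → 𝓞 N) (l : 𝓞 N)
    (h : Q.intValuation (∏ j ∈ Finset.range p, f j) < Q.intValuation (l ^ p)) :
    ∃ j < p, Q.intValuation (f j) < Q.intValuation l := by
  by_contra hcon
  have hcon' : ∀ j < p, Q.intValuation l ≤ Q.intValuation (f j) := fun j hj =>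
    not_lt.mp fun hlt => hcon ⟨j, hj, hlt⟩
  refine absurd h (not_lt.mpr ?_)
  rw [map_pow, map_prod]
  calc Q.intValuation l ^ p = ∏ _j ∈ Finset.range p, Q.intValuation l := by
        rw [Finset.prod_const, Finset.card_range]
    _ ≤ ∏ j ∈ Finset.range p, Q.intValuation (f j) :=
        Finset.prod_le_prod' fun j hj => hcon' j (Finset.mem_range.mp hj)

/-- Units have absolute value `1`. -/
theorem intValuation_unit (Q : HeightOneSpectrum (𝓞 N)) (u : (𝓞 N)ˣ) :
    Q.intValuation (u : 𝓞 N) = 1 := by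
  rw [HeightOneSpectrum.intValuation_eq_one_iff]
  intro hu
  exact Q.isPrime.ne_top (Ideal.eq_top_of_isUnit_mem _ hu u.isUnit)

/-- Elements outside `Q` have absolute value `1`. -/
theorem intValuation_eq_one_of_not_mem (Q : HeightOneSpectrum (𝓞 N)) (y : 𝓞 N)
    (hy : y ∉ Q.asIdeal) : Q.intValuation y = 1 := by
  exact HeightOneSpectrum.intValuation_eq_one_iff.mpr hy

/-- Ultrametric inequality, in the form used in `Split.lean`: if `y` and `z` are both smaller than
`l` then so is `y - z`. -/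
theorem intValuation_sub_lt (Q : HeightOneSpectrum (𝓞 N)) (y z l : 𝓞 N)
    (hy : Q.intValuation y < Q.intValuation l) (hz : Q.intValuation z < Q.intValuation l) :
    Q.intValuation (y - z) < Q.intValuation l := by
  exact Valuation.map_sub_lt _ hy hz

end Fermat.Agent.S14.Kummer
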