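import Fermat.Agent.S14.Kummer.Basic
import Fermat.Agent.S14.Kummer.Val

/-!
# S14 / Kummer: the local computation behind the splitting criterion

Notation: `y_j = c - ζ^j b ∈ 𝓞 N` (`j < p`), `λ = 1 - ζ`, `|·| = Q.intValuation`.
`∏_j y_j = c^p - x` (`prod_sub_zeta_pow_mul`), and `y_i - y_j = (ζ^j - ζ^i) b = unit * λ * b`
for `i ≢ j mod p` (`exists_unit_mul_one_sub`), `|b| = 1`.
-/

set_option autoImplicit false

namespace Fermat.Agent.S14.Kummer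

open NumberField IsDedekindDomain
open scoped Pointwise

variable {p : ℕ} [Fact p.Prime] {F : Type*} [Field F] [NumberField F]
  {N : Type*} [Field N] [NumberField N] [Algebra F N]

/-- If `x ≡ c^p mod v^n` and `(1 - ζ)^p ∉ v^n`, then some `y_j` is smaller than `λ` at `Q`.
(`|∏_j y_j| = |c^p - x| < |λ^p|` by `intValuation_lt_of_mem_pow`; then `exists_lt_of_prod_lt`.) -/
theorem exists_small (ζ : 𝓞 F) (hζ : IsPrimitiveRoot ζ p) (x c : 𝓞 F)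
    (b : 𝓞 N) (hb : b ^ p = algebraMap (𝓞 F) (𝓞 N) x)
    (v : Ideal (𝓞 F)) (hv : v.IsPrime) (hv0 : v ≠ ⊥) (n : ℕ)
    (hn : (1 - ζ) ^ p ∉ v ^ n) (hc : x - c ^ p ∈ v ^ n)
    (Q : HeightOneSpectrum (𝓞 N)) (hQv : Q.asIdeal.LiesOver v) :
    ∃ j < p, Q.intValuation (algebraMap (𝓞 F) (𝓞 N) c - algebraMap (𝓞 F) (𝓞 N) (ζ ^ j) * b)
      < Q.intValuation (algebraMap (𝓞 F) (𝓞 N) (1 - ζ)) := by
  have hinj : Function.Injective (algebraMap (𝓞 F) (𝓞 N)) :=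
    FaithfulSMul.algebraMap_injective (𝓞 F) (𝓞 N)
  have hζ' : IsPrimitiveRoot (algebraMap (𝓞 F) (𝓞 N) ζ) p := hζ.map_of_injective hinj
  have hprod : ∏ j ∈ Finset.range p,
      (algebraMap (𝓞 F) (𝓞 N) c - algebraMap (𝓞 F) (𝓞 N) (ζ ^ j) * b)
        = - algebraMap (𝓞 F) (𝓞 N) (x - c ^ p) := by
    have key := prod_sub_zeta_pow_mul (algebraMap (𝓞 F) (𝓞 N) ζ) hζ'
      (algebraMap (𝓞 F) (𝓞 N) c) b
    simp only [map_pow]
    rw [key, hb, map_sub, map_pow, neg_sub]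
  have hlt := intValuation_lt_of_mem_pow v hv hv0 Q hQv n (x - c ^ p) ((1 - ζ) ^ p) hc hn
  apply exists_lt_of_prod_lt Q p
    (fun j => algebraMap (𝓞 F) (𝓞 N) c - algebraMap (𝓞 F) (𝓞 N) (ζ ^ j) * b)
    (algebraMap (𝓞 F) (𝓞 N) (1 - ζ))
  rw [hprod, Valuation.map_neg, ← map_pow]
  exact hlt

/-- At most one `y_j` (`j` mod `p`) is smaller than `λ` at `Q`, when `x ∉ v`.
(If `i ≢ j` then `y_j - y_i = (ζ^i - ζ^j) b = u * λ * b` has `|·| = |λ|` by `intValuation_unit`,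
`intValuation_eq_one_of_not_mem`, `not_mem_of_not_mem`; this contradicts
`intValuation_sub_lt`.) -/
theorem small_unique (ζ : 𝓞 F) (hζ : IsPrimitiveRoot ζ p) (x c : 𝓞 F)
    (b : 𝓞 N) (hb : b ^ p = algebraMap (𝓞 F) (𝓞 N) x)
    (v : Ideal (𝓞 F)) (hxv : x ∉ v)
    (Q : HeightOneSpectrum (𝓞 N)) (hQv : Q.asIdeal.LiesOver v) (i j : ℕ)
    (hi : Q.intValuation (algebraMap (𝓞 F) (𝓞 N) c - algebraMap (𝓞 F) (𝓞 N) (ζ ^ i) * b)
      < Q.intValuation (algebraMap (𝓞 F) (𝓞 N) (1 - ζ)))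
    (hj : Q.intValuation (algebraMap (𝓞 F) (𝓞 N) c - algebraMap (𝓞 F) (𝓞 N) (ζ ^ j) * b)
      < Q.intValuation (algebraMap (𝓞 F) (𝓞 N) (1 - ζ))) :
    i ≡ j [MOD p] := by
  by_contra hij
  obtain ⟨u, hu⟩ := exists_unit_mul_one_sub ζ hζ i j hij
  have hbQ : b ∉ Q.asIdeal := not_mem_of_not_mem x b hb v hxv Q.asIdeal hQv
  have hdiff : (algebraMap (𝓞 F) (𝓞 N) c - algebraMap (𝓞 F) (𝓞 N) (ζ ^ j) * b)
      - (algebraMap (𝓞 F) (𝓞 N) c - algebraMap (𝓞 F) (𝓞 N) (ζ ^ i) * b)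
      = ((Units.map (algebraMap (𝓞 F) (𝓞 N)).toMonoidHom u : (𝓞 N)ˣ) : 𝓞 N)
          * algebraMap (𝓞 F) (𝓞 N) (1 - ζ) * b := by
    have h1 : algebraMap (𝓞 F) (𝓞 N) (ζ ^ i) - algebraMap (𝓞 F) (𝓞 N) (ζ ^ j)
        = algebraMap (𝓞 F) (𝓞 N) (u : 𝓞 F) * algebraMap (𝓞 F) (𝓞 N) (1 - ζ) := by
      rw [← map_sub, hu, map_mul]
    have h2 : ((Units.map (algebraMap (𝓞 F) (𝓞 N)).toMonoidHom u : (𝓞 N)ˣ) : 𝓞 N)
        = algebraMap (𝓞 F) (𝓞 N) (u : 𝓞 F) := rfl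
    rw [h2, ← h1]
    ring
  have hval : Q.intValuation ((algebraMap (𝓞 F) (𝓞 N) c - algebraMap (𝓞 F) (𝓞 N) (ζ ^ j) * b)
      - (algebraMap (𝓞 F) (𝓞 N) c - algebraMap (𝓞 F) (𝓞 N) (ζ ^ i) * b))
      = Q.intValuation (algebraMap (𝓞 F) (𝓞 N) (1 - ζ)) := by
    rw [hdiff, map_mul, map_mul, intValuation_unit, intValuation_eq_one_of_not_mem Q b hbQ,
      one_mul, mul_one]
  have hlt := intValuation_sub_lt Q _ _ _ hj hi
  rw [hval] at hlt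
  exact lt_irrefl _ hlt

end Fermat.Agent.S14.Kummer
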