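import Fermat.Agent.S14.Kummer.Defs

/-!
# S14 / Kummer: elementary facts on `1 - ζ` in a domain (no number fields here)
-/

set_option autoImplicit false

namespace Fermat.Agent.S14.Kummer

open Finset

variable {p : ℕ} [Fact p.Prime] {R : Type*} [CommRing R] [IsDomain R]

/-- `ζ ^ k - 1` divides `p` when `p ∤ k`
(from `∏_{1 ≤ k < p} (1 - ζ ^ k) = p`, Mathlib `IsPrimitiveRoot.prod_one_sub_pow_eq_order`). -/
theorem pow_sub_one_dvd_prime (ζ : R) (hζ : IsPrimitiveRoot ζ p) (k : ℕ) (hk : ¬ p ∣ k) :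
    (ζ ^ k - 1) ∣ (p : R) := by
  have _hp : p.Prime := Fact.out
  have h1 : (ζ ^ k) ^ p = 1 := by
    rw [← pow_mul, mul_comm, pow_mul, hζ.pow_eq_one, one_pow]
  have h2 : ζ ^ k ≠ 1 := fun h ↦ hk ((hζ.pow_eq_one_iff_dvd k).1 h)
  exact sub_one_dvd_natCast_of_pow_eq_one h1 h2

/-- `1 - ζ` divides `p`. -/
theorem one_sub_dvd_prime (ζ : R) (hζ : IsPrimitiveRoot ζ p) : (1 - ζ) ∣ (p : R) := by
  have hp : p.Prime := Fact.out
  have h : (ζ ^ 1 - 1) ∣ (p : R) :=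
    pow_sub_one_dvd_prime ζ hζ 1 (fun h ↦ hp.one_lt.ne' (Nat.dvd_one.1 h))
  rw [pow_one] at h
  rw [← neg_sub ζ 1]
  exact (neg_dvd).2 h

/-- `ζ ^ i - ζ ^ j` is a unit times `1 - ζ` when `i ≢ j mod p`
(Mathlib `IsPrimitiveRoot.associated_sub_one_pow_sub_one_of_coprime`). -/
theorem exists_unit_mul_one_sub (ζ : R) (hζ : IsPrimitiveRoot ζ p) (i j : ℕ)
    (hij : ¬ i ≡ j [MOD p]) : ∃ u : Rˣ, ζ ^ i - ζ ^ j = u * (1 - ζ) := by
  have hp : p.Prime := Fact.out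
  have hmem : ∀ m : ℕ, ζ ^ m ∈ Polynomial.nthRootsFinset p (1 : R) := by
    intro m
    rw [Polynomial.mem_nthRootsFinset hp.pos, ← pow_mul, mul_comm, pow_mul, hζ.pow_eq_one,
      one_pow]
  have hne : ζ ^ i ≠ ζ ^ j := by
    intro h
    apply hij
    have hmod : ∀ m : ℕ, ζ ^ (m % p) = ζ ^ m := by
      intro m
      conv_rhs => rw [← Nat.mod_add_div m p, pow_add, pow_mul, hζ.pow_eq_one, one_pow, mul_one]
    exact hζ.pow_inj (Nat.mod_lt i hp.pos) (Nat.mod_lt j hp.pos) (by rw [hmod i, hmod j, h])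
  obtain ⟨u, hu⟩ :=
    hζ.nthRootsFinset_pairwise_associated_sub_one_sub_of_prime hp (hmem i) (hmem j) hne
  refine ⟨-u, ?_⟩
  rw [← hu, Units.val_neg]
  ring

/-- `∏_{j < p} (c - ζ ^ j * b) = c ^ p - b ^ p`
(Mathlib `IsPrimitiveRoot.pow_sub_pow_eq_prod_sub_mul`, reindexed over `range p`). -/
theorem prod_sub_zeta_pow_mul (ζ : R) (hζ : IsPrimitiveRoot ζ p) (c b : R) :
    ∏ j ∈ range p, (c - ζ ^ j * b) = c ^ p - b ^ p := by
  have hp : p.Prime := Fact.out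
  have h := congrArg (Polynomial.eval c)
    (X_pow_sub_C_eq_prod hζ hp.pos (rfl : b ^ p = b ^ p))
  simp only [Polynomial.eval_sub, Polynomial.eval_pow, Polynomial.eval_X, Polynomial.eval_C,
    Polynomial.eval_prod] at h
  exact h.symm

/-- A `p`-th root of unity in a domain containing the primitive root `ζ` is a power of `ζ`:
if `a ^ p = b ^ p` and `b ≠ 0` then `a = ζ ^ k * b` for some `k < p`. -/
theorem exists_eq_zeta_pow_mul (ζ : R) (hζ : IsPrimitiveRoot ζ p) (a b : R) (hb : b ≠ 0)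
    (h : a ^ p = b ^ p) : ∃ k < p, a = ζ ^ k * b := by
  have _ := hb
  have hprod : ∏ j ∈ range p, (a - ζ ^ j * b) = 0 := by
    rw [prod_sub_zeta_pow_mul ζ hζ a b, h, sub_self]
  obtain ⟨k, hk, hk0⟩ := Finset.prod_eq_zero_iff.1 hprod
  exact ⟨k, Finset.mem_range.1 hk, sub_eq_zero.1 hk0⟩

end Fermat.Agent.S14.Kummer
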